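import Fermat.Agent.S01

/-!
# Mathlib's form of the theorem

`FermatLastTheorem`, as Mathlib states it, from the root statement, and its forms over `ℤ` and `ℚ`.
-/

set_option autoImplicit false

namespace Fermat.Agent

/-- Fermat's Last Theorem in Mathlib's formulation. -/
theorem fermatLastTheorem_full : FermatLastTheorem := fun n hn a b c ha hb hc =>
  S01.result n hn a b c (Nat.pos_of_ne_zero ha) (Nat.pos_of_ne_zero hb) (Nat.pos_of_ne_zero hc)

/-- Fermat's Last Theorem for integers. -/
theorem fermatLastTheorem_int (n : ℕ) (hn : 3 ≤ n) : FermatLastTheoremWith ℤ n :=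
  fermatLastTheoremFor_iff_int.mp (fermatLastTheorem_full n hn)

/-- Fermat's Last Theorem for rational numbers. -/
theorem fermatLastTheorem_rat (n : ℕ) (hn : 3 ≤ n) : FermatLastTheoremWith ℚ n :=
  fermatLastTheoremFor_iff_rat.mp (fermatLastTheorem_full n hn)

end Fermat.Agent
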