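-- S11: the mod 11 representation of the Frey curve has no Galois-stable cofixed line.
import Fermat.Statements.S11
import Fermat.Agent.Isogeny.Quotient
import Fermat.Agent.Small11.NormalForm

set_option autoImplicit false
open WeierstrassCurve WeierstrassCurve.Affine WeierstrassCurve.Affine.Point
open CuspForm ModularFormClass UpperHalfPlane
open FreyPackage

namespace Fermat.Agent.S11

theorem freyCurve_Δ_ne_zero (P : FreyPackage) : P.freyCurve.Δ ≠ 0 := by
  have h : P.freyCurve.Δ * 256 = ((P.a : ℚ) ^ P.p * (P.b : ℚ) ^ P.p * (P.c : ℚ) ^ P.p) ^ 2 := by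
    have hc : (P.c : ℚ) ^ P.p = (P.a : ℚ) ^ P.p + (P.b : ℚ) ^ P.p := by exact_mod_cast P.hFLT.symm
    rw [hc]
    simp only [FreyPackage.freyCurve, WeierstrassCurve.Δ, WeierstrassCurve.b₂, WeierstrassCurve.b₄,
      WeierstrassCurve.b₆, WeierstrassCurve.b₈]
    ring
  intro h0
  rw [h0, zero_mul] at h
  refine pow_ne_zero 2 (mul_ne_zero (mul_ne_zero (pow_ne_zero _ ?_) (pow_ne_zero _ ?_))
    (pow_ne_zero _ ?_)) h.symm
  · exact_mod_cast P.ha0
  · exact_mod_cast P.hb0
  · exact_mod_cast P.hc0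

theorem result (P : FreyPackage) (hp : P.p = 11) : ¬ HasGaloisStableCofixedLine (K := AlgebraicClosure ℚ) ℚ P.freyCurve P.p := by
  intro h
  obtain ⟨W', -, ⟨Q, hQ⟩, -⟩ :=
    Fermat.Agent.Isogeny.exists_curve_of_cofixedLine P.freyCurve (freyCurve_Δ_ne_zero P) P.p P.pp
      (by omega) h
  exact Fermat.Agent.Small11.no_order_eleven Q (hQ.trans hp)

end Fermat.Agent.S11
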