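import Fermat.Statements.S02

set_option autoImplicit false
open FreyPackage

namespace Fermat.Agent.S02

/-- A primitive solution with `b` even yields a Frey package. -/
theorem of_primitive_even {a b c : ℤ} (ha : a ≠ 0) (hb : b ≠ 0) (hc : c ≠ 0) {p : ℕ} (pp : p.Prime)
    (hp5 : 5 ≤ p) (H : a ^ p + b ^ p = c ^ p) (hg : gcd a b = 1) (hb2 : (2 : ℤ) ∣ b) :
    Nonempty FreyPackage := by
  have hpodd : Odd p := pp.odd_of_ne_two (by omega)
  have ha2 : ¬ (2 : ℤ) ∣ a := by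
    intro h
    have h' : (2 : ℤ) ∣ gcd a b := dvd_gcd h hb2
    rw [hg] at h'
    omega
  rcases (by omega : a % 4 = 1 ∨ a % 4 = 3) with h | h
  · refine ⟨{ a := -a, b := -b, c := -c, ha0 := by simpa using ha, hb0 := by simpa using hb,
              hc0 := by simpa using hc, p := p, pp := pp, hp5 := hp5, hFLT := ?_, hgcdab := ?_,
              ha4 := ?_, hb2 := ?_ }⟩
    · rw [hpodd.neg_pow, hpodd.neg_pow, hpodd.neg_pow, ← H]; ring
    · rw [← Int.coe_gcd] at hg ⊢
      rw [Int.neg_gcd, Int.gcd_neg]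
      exact hg
    · have : ((-a : ℤ) : ZMod 4) = ((3 : ℤ) : ZMod 4) := by
        rw [ZMod.intCast_eq_intCast_iff']
        omega
      simpa using this
    · rw [ZMod.intCast_zmod_eq_zero_iff_dvd]
      simpa using hb2
  · refine ⟨{ a := a, b := b, c := c, ha0 := ha, hb0 := hb,
              hc0 := hc, p := p, pp := pp, hp5 := hp5, hFLT := H, hgcdab := hg,
              ha4 := ?_, hb2 := ?_ }⟩
    · have : ((a : ℤ) : ZMod 4) = ((3 : ℤ) : ZMod 4) := by
        rw [ZMod.intCast_eq_intCast_iff']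
        omega
      simpa using this
    · rw [ZMod.intCast_zmod_eq_zero_iff_dvd]
      exact_mod_cast hb2

/-- A primitive solution yields a Frey package. -/
theorem of_primitive {a b c : ℤ} (ha : a ≠ 0) (hb : b ≠ 0) (hc : c ≠ 0) {p : ℕ} (pp : p.Prime)
    (hp5 : 5 ≤ p) (H : a ^ p + b ^ p = c ^ p) (hg : gcd a b = 1) :
    Nonempty FreyPackage := by
  have hpodd : Odd p := pp.odd_of_ne_two (by omega)
  by_cases hb2 : (2 : ℤ) ∣ b
  · exact of_primitive_even ha hb hc pp hp5 H hg hb2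
  by_cases ha2 : (2 : ℤ) ∣ a
  · refine of_primitive_even hb ha hc pp hp5 (by rw [← H]; ring) ?_ ha2
    rw [gcd_comm]; exact hg
  · have hc2 : (2 : ℤ) ∣ c := by
      rw [← even_iff_two_dvd] at ha2 hb2 ⊢
      have : Even (c ^ p) := by
        rw [← H, Int.even_add, Int.even_pow, Int.even_pow]
        simp [ha2, hb2]
      exact (Int.even_pow.1 this).1
    refine of_primitive_even ha (neg_ne_zero.2 hc) (neg_ne_zero.2 hb) pp hp5 ?_ ?_ (dvd_neg.2 hc2)
    · rw [hpodd.neg_pow, hpodd.neg_pow, ← H]; ring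
    · rw [← Int.coe_gcd, Int.gcd_neg, Int.coe_gcd, ← gcdab_eq_gcdac (by omega) H]
      exact hg

theorem result (a b c : ℤ) (ha : a ≠ 0) (hb : b ≠ 0) (hc : c ≠ 0) (p : ℕ) (pp : p.Prime) (hp5 : 5 ≤ p) (H : a ^ p + b ^ p = c ^ p) : Nonempty FreyPackage := by
  have hgpos : 0 < Int.gcd a b := Int.gcd_pos_iff.2 (Or.inl ha)
  obtain ⟨a', b', hab, ha', hb'⟩ := Int.exists_gcd_one hgpos
  set g : ℤ := ((Int.gcd a b : ℕ) : ℤ) with hg
  have hg0 : g ≠ 0 := by positivity
  have hgc : g ∣ c := by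
    rw [← Int.pow_dvd_pow_iff pp.ne_zero, ← H]
    exact dvd_add (pow_dvd_pow_of_dvd (Int.gcd_dvd_left a b) _)
      (pow_dvd_pow_of_dvd (Int.gcd_dvd_right a b) _)
  obtain ⟨c', hc'⟩ := hgc
  have ha0 : a' ≠ 0 := by rintro rfl; simp at ha'; exact ha ha'
  have hb0 : b' ≠ 0 := by rintro rfl; simp at hb'; exact hb hb'
  have hc0 : c' ≠ 0 := by rintro rfl; simp at hc'; exact hc hc'
  refine of_primitive ha0 hb0 hc0 pp hp5 ?_ ?_
  · rw [ha', hb', hc', mul_pow, mul_pow, mul_pow] at H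
    apply mul_left_cancel₀ (pow_ne_zero p hg0)
    linear_combination H
  · rw [← Int.coe_gcd, hab]; rfl

end Fermat.Agent.S02
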