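import Fermat.Statements.S07
import Fermat.Agent.Modular.WeightTwoLowLevel

set_option autoImplicit false
open WeierstrassCurve WeierstrassCurve.Affine WeierstrassCurve.Affine.Point
open CuspForm ModularFormClass UpperHalfPlane
open ModularForm

namespace Fermat.Agent.S07

theorem result (f : CuspForm (CongruenceSubgroup.Gamma0 2) 2) : f = 0 := by
  exact Fermat.Agent.Modular.cuspForm_two_eq_zero_of_index_lt
    (by have := Fermat.Agent.Modular.index_Gamma0_le_sq 2; omega) f

end Fermat.Agent.S07
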