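import Fermat.Statements.S49
import Fermat.Agent.Eigen.Congruence

set_option autoImplicit false
open CuspForm EisensteinWeightOne CongruenceSubgroup ModularFormClass
open FLT FLT.AbstractIntegralStructure

namespace Fermat.Agent.S49

open Fermat.Agent.Eigen in
lemma hasIntegralStructure_of_hasIntegralBasis {N : ℕ} (h : CuspForm.HasIntegralBasis N) :
    CuspForm.HasIntegralStructure N 2 := by
  refine eq_top_mono (Submodule.span_mono fun f hf => Submodule.subset_span fun n => ?_) h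
  obtain ⟨m, hm⟩ := Subring.mem_bot.mp (hf n)
  exact ⟨m, hm.symm⟩

lemma chiNegThree_cast (n : ℕ) : ((chiNegThree n : ℤ) : ZMod 3) = (n : ZMod 3) := by
  rw [← ZMod.natCast_mod n 3]
  have h : n % 3 < 3 := Nat.mod_lt _ (by norm_num)
  unfold chiNegThree
  generalize n % 3 = r at h ⊢
  interval_cases r <;> decide

lemma bridgeProduct_cast (a : ℕ → ℤ) (n : ℕ) :
    (((bridgeProduct a).coeff n : ℤ) : ZMod 3) = (a n : ZMod 3) := by
  have h : PowerSeries.map (Int.castRingHom (ZMod 3)) (e1Chi3In ℤ) = 1 := by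
    ext k
    rw [e1Chi3In, PowerSeries.coeff_map, PowerSeries.coeff_map, e1Chi3, PowerSeries.coeff_mk,
      PowerSeries.coeff_one]
    rcases eq_or_ne k 0 with rfl | hk
    · simp
    · rw [if_neg hk, if_neg hk]
      simp only [eq_intCast, Int.cast_id, Int.cast_mul, Int.cast_ofNat]
      rw [show (6 : ZMod 3) = 0 from rfl, zero_mul]
  have h2 := congrArg (PowerSeries.coeff n)
    (congrArg (PowerSeries.map (Int.castRingHom (ZMod 3)) (PowerSeries.mk a) * ·) h)
  simp only [← map_mul, mul_one, PowerSeries.coeff_map, PowerSeries.coeff_mk, eq_intCast] at h2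
  exact h2

theorem result
    {N : ℕ} [NeZero N] (h : CuspForm.HasIntegralBasis N) {a : ℕ → ℤ}
    (heig : FormalHecke.IsEigensystem
      (fun ℓ => if ℓ ∣ N then 0 else ((chiNegThree ℓ : ℤ) : ℤ)) a)
    (hreal : CuspForm.IsLatticeRealized N a) :
    ∃ (f : CuspForm (Gamma0 N) 2) (_ : f.IsNormalizedEigenform)
      (𝔪' : Ideal (integralClosure ℤ ℂ)), 𝔪'.IsMaximal ∧
      ((3 : ℕ) : integralClosure ℤ ℂ) ∈ 𝔪' ∧
      ∀ (ℓ : ℕ) (_ : ℓ.Prime) (_ : ¬ ℓ ∣ N),
        ∃ c : integralClosure ℤ ℂ, (c : ℂ) = ModularFormClass.qCoeff f ℓ ∧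
          c - (a ℓ : integralClosure ℤ ℂ) ∈ 𝔪' := by
  obtain ⟨g, hg, af, haf, hdvd⟩ := hreal
  obtain ⟨ha1, hrec⟩ := heig
  have hmod : ∀ n, (af n : ZMod 3) = (a n : ZMod 3) := fun n => by
    rw [← bridgeProduct_cast a n, ← sub_eq_zero, ← Int.cast_sub]
    exact (ZMod.intCast_zmod_eq_zero_iff_dvd _ 3).mpr (hdvd n)
  have hrec' : ∀ ℓ : ℕ, ℓ.Prime → ∀ n,
      (a (ℓ * n) : ZMod 3) + (if ℓ ∣ N then 0 else (ℓ : ZMod 3)) *
        (if ℓ ∣ n then (a (n / ℓ) : ZMod 3) else 0) = (a ℓ : ZMod 3) * (a n : ZMod 3) := by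
    intro ℓ hℓ n
    have := congrArg (fun z : ℤ => (z : ZMod 3)) (hrec ℓ hℓ n)
    push_cast [apply_ite (fun z : ℤ => (z : ZMod 3))] at this
    simpa [chiNegThree_cast] using this
  have hdiv : ∀ z : ℤ, (z : ZMod 3) = 0 → ∃ w : ℤ, (z : ℂ) = ((3 : ℕ) : ℂ) * w := fun z hz => by
    obtain ⟨w, rfl⟩ := (ZMod.intCast_zmod_eq_zero_iff_dvd z 3).mp hz
    exact ⟨w, by push_cast; ring⟩
  have key := Fermat.Agent.Eigen.exists_eigenform_congruent
    (hasIntegralStructure_of_hasIntegralBasis h) 3 g a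
    (Submodule.subset_span fun n => ⟨af n, (haf n).symm⟩)
  refine (key ?_ ?_ ?_).imp fun f => Exists.imp fun hf => Exists.imp fun 𝔪 hm =>
    ⟨hm.1, hm.2.1, fun ℓ hℓ _ => hm.2.2 ℓ hℓ⟩
  · intro z hz
    have h1 : af 1 = 3 * z := by
      have : (af 1 : ℂ) = ((3 * z : ℤ) : ℂ) := by rw [haf, hz]; push_cast; ring
      exact_mod_cast this
    have h2 := hmod 1
    rw [ha1, h1] at h2
    push_cast at h2
    rw [show (3 : ZMod 3) = 0 from rfl, zero_mul] at h2
    exact zero_ne_one h2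
  · intro p hp hpN n
    rw [Fermat.Agent.Eigen.qCoeff_heckeTLin_two hp hpN]
    simp only [← haf]
    have h0 := hrec' p hp n
    rw [if_neg hpN, mul_comm p n] at h0
    obtain ⟨w, hw⟩ := hdiv (af (n * p) + (if p ∣ n then (p : ℤ) * af (n / p) else 0) - a p * af n) (by
      push_cast [apply_ite (fun z : ℤ => (z : ZMod 3)), hmod]
      rw [← h0, mul_ite, mul_zero, sub_self])
    exact ⟨w, by rw [← hw]; push_cast [apply_ite (fun z : ℤ => (z : ℂ))]; ring⟩
  · intro p hp hpN n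
    rw [Fermat.Agent.Eigen.qCoeff_heckeULin hp.ne_zero hpN]
    simp only [← haf]
    have h0 := hrec' p hp n
    rw [if_pos hpN, zero_mul, add_zero, mul_comm p n] at h0
    obtain ⟨w, hw⟩ := hdiv (af (n * p) - a p * af n) (by
      push_cast [hmod]
      rw [h0, sub_self])
    exact ⟨w, by rw [← hw]; push_cast; ring⟩

end Fermat.Agent.S49
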