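import Fermat.Statements.S40
import Fermat.Agent.MazurPrinciple2.Final

set_option autoImplicit false
open WeierstrassCurve

namespace Fermat.Agent.S40

theorem result
    (W : WeierstrassCurve ℤ) (hΔ : W.Δ ≠ 0)
    {p : ℕ} (hp : p.Prime) (hp2 : p ≠ 2)
    (hgood : W.IsGoodPrimeFor p)
    (hirr : W.ModRepIsIrreducible p)
    {M : ℕ} (hM : 0 < M) (hpM : p ∣ M) (hp2M : ¬ p ^ 2 ∣ M)
    (hmod : W.IsResiduallyModularOfLevel p M) :
    W.IsResiduallyModularOfLevel p (M / p) := by
  exact Fermat.Agent.MazurPrinciple2.isResiduallyModularOfLevel_div_of_good' hΔ hp hp2 hgood hirr hM hpM hp2M hmod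

end Fermat.Agent.S40
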