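import Fermat.Statements.S41
import Fermat.Agent.Raise.Lift

set_option autoImplicit false
open WeierstrassCurve WeierstrassCurve.Affine WeierstrassCurve.Affine.Point
open scoped CongruenceSubgroup
open WeierstrassCurve

namespace Fermat.Agent.S41

theorem result
    (E : WeierstrassCurve ℚ) [E.IsElliptic] {W : WeierstrassCurve ℤ} (hW : W.IsIntegralModelOf E)
    {p N q' : ℕ} (hp : p.Prime) (hp2 : p ≠ 2) (hN : 0 < N) (hq' : q'.Prime) (hq'N : ¬ q' ∣ N) (hq'p : q' ≠ p)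
    (hirr : GaloisRepIsIrreducible (K := AlgebraicClosure ℚ) ℚ E p)
    (f : CuspForm (CongruenceSubgroup.Gamma0 N) 2) (𝔪 : Ideal (integralClosure ℤ ℂ))
    (hf : f.IsNormalizedEigenform) (hmax : 𝔪.IsMaximal) (hpm : (p : integralClosure ℤ ℂ) ∈ 𝔪)
    (hcong : ∀ ℓ : ℕ, ℓ.Prime → W.IsGoodPrimeFor ℓ → ¬ ℓ ∣ N → ℓ ≠ p →
      ∃ a : integralClosure ℤ ℂ, (a : ℂ) = ModularFormClass.qCoeff f ℓ ∧
        a - ((W.apOfModel ℓ : ℤ) : integralClosure ℤ ℂ) ∈ 𝔪)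
    (hLR : ∃ a : integralClosure ℤ ℂ, (a : ℂ) = ModularFormClass.qCoeff f q' ∧
      a ^ 2 - ((q' : integralClosure ℤ ℂ) + 1) ^ 2 ∈ 𝔪) :
    ∃ (g : CuspForm (CongruenceSubgroup.Gamma0 (N * q')) 2) (𝔪' : Ideal (integralClosure ℤ ℂ)),
      g.IsNormalizedEigenform ∧ 𝔪'.IsMaximal ∧ (p : integralClosure ℤ ℂ) ∈ 𝔪' ∧
      (∀ ℓ : ℕ, ℓ.Prime → W.IsGoodPrimeFor ℓ → ¬ ℓ ∣ N * q' → ℓ ≠ p →
        ∃ a : integralClosure ℤ ℂ, (a : ℂ) = ModularFormClass.qCoeff g ℓ ∧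
          a - ((W.apOfModel ℓ : ℤ) : integralClosure ℤ ℂ) ∈ 𝔪') ∧
      g.IsNewAt q' := by
  classical
  have : Fact p.Prime := ⟨hp⟩
  have : Fact q'.Prime := ⟨hq'⟩
  have : NeZero N := ⟨hN.ne'⟩
  have : NeZero q' := ⟨hq'.ne_zero⟩
  have : NeZero p := ⟨hp.ne_zero⟩
  have h2 : (2 : ZMod p) ≠ 0 := by
    intro h
    exact hp2 ((Nat.prime_dvd_prime_iff_eq hp Nat.prime_two).mp
      ((ZMod.natCast_eq_zero_iff 2 p).mp (by exact_mod_cast h)))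
  obtain ⟨hΔ, hirrW⟩ := Raise.modRepIsIrreducible_of_isIntegralModelOf hW hirr
  -- the sign at `q'`
  obtain ⟨a, ha, ha2⟩ := hLR
  obtain ⟨e, he, hae⟩ : ∃ e : ℤ, e * e = 1 ∧
      a - ((e * ((q' : ℤ) + 1) : ℤ) : integralClosure ℤ ℂ) ∈ 𝔪 := by
    have h := hmax.isPrime.mem_or_mem (show (a - ((q' : integralClosure ℤ ℂ) + 1))
      * (a + ((q' : integralClosure ℤ ℂ) + 1)) ∈ 𝔪 by
        rw [mul_comm, ← sq_sub_sq]; exact ha2)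
    rcases h with h | h
    · exact ⟨1, by norm_num, by push_cast; simpa using h⟩
    · exact ⟨-1, by norm_num, by push_cast; rw [neg_one_mul, sub_neg_eq_add]; exact h⟩
  let G : Set Nat.Primes := {l | W.IsGoodPrimeFor l ∧ ¬ (l : ℕ) ∣ N * q' ∧ (l : ℕ) ≠ p}
  let q₀ : Nat.Primes := ⟨q', hq'⟩
  let c : Nat.Primes → ℤ := fun l => if l = q₀ then e * ((q' : ℤ) + 1) else W.apOfModel l
  have hcG : ∀ l ∈ G, c l = W.apOfModel l := fun l hl => if_neg fun h => hl.2.1 (by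
    rw [h]; exact dvd_mul_left q' N)
  obtain ⟨x, hx, hxeig⟩ := Raise.exists_eigenclass (p := p) hf 𝔪 hpm (insert q₀ G) c
    (by
      rintro l (rfl | hl)
      · exact ⟨a, ha, by simpa [c] using hae⟩
      · rw [hcG l hl]
        exact hcong l l.2 hl.1 (fun h => hl.2.1 (h.mul_right q')) hl.2.2)
    (by
      rintro l (rfl | hl)
      · exact hq'N
      · exact fun h => hl.2.1 (h.mul_right q'))
  obtain ⟨ℓ, hℓ, hℓS, hℓp, hℓg, hℓne⟩ :=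
    Raise.exists_prime_sq_ne hΔ hp2 hirrW (N * q').primeFactors
  obtain ⟨ℓ₀, hℓ₀, hℓ₀S, hℓ₀p, hℓ₀M, hℓ₀1, hℓ₀g, hℓ₀ne⟩ :=
    Raise.exists_prime_one_mod_ne hΔ hp2 hirrW (N * q') ∅
  have hℓN : ¬ ℓ ∣ N * q' := fun h =>
    hℓS (Nat.mem_primeFactors.mpr ⟨hℓ, h, mul_ne_zero hN.ne' hq'.ne_zero⟩)
  have hℓG : (⟨ℓ, hℓ⟩ : Nat.Primes) ∈ G := ⟨hℓg, hℓN, hℓp⟩
  have hℓ₀G : (⟨ℓ₀, hℓ₀⟩ : Nat.Primes) ∈ G := ⟨hℓ₀g, hℓ₀M, hℓ₀p⟩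
  have hTq := hxeig q₀ (Set.mem_insert _ _)
  rw [show (c q₀ : ZMod p) = (e : ZMod p) * ((q' : ZMod p) + 1) by simp [c]] at hTq
  obtain ⟨z, hz, hzU, hzeig⟩ := Raise.exists_integral_class hq'N h2 ⟨ℓ, hℓ⟩ ⟨ℓ₀, hℓ₀⟩ hℓN hℓ₀M
    hℓ₀1 hx G c (fun l hl => hl.2.1) (fun l hl => hxeig l (Set.mem_insert_of_mem _ hl)) hℓG hℓ₀G
    (by rw [hcG _ hℓG]; exact hℓne) (by rw [hcG _ hℓ₀G]; exact hℓ₀ne) hq' (ε := (e : ZMod p))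
    (by rw [← Int.cast_mul, he, Int.cast_one]) hTq
  obtain ⟨g, 𝔪', hg, hmax', hpm', hcong', hnew⟩ := Raise.exists_eigenform_of_class hq'
    (dvd_mul_left q' N) z hz hzU G c (fun l hl => hl.2.1) hzeig
  refine ⟨g, 𝔪', hg, hmax', hpm', fun l hl hlg hlN hlp => ?_, hnew⟩
  have hlG : (⟨l, hl⟩ : Nat.Primes) ∈ G := ⟨hlg, hlN, hlp⟩
  obtain ⟨b, hb, hbm⟩ := hcong' _ hlG
  rw [hcG _ hlG] at hbm
  exact ⟨b, hb, hbm⟩

end Fermat.Agent.S41
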