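import Fermat.Statements.S54
import Fermat.Agent.Galois.Frobenius

set_option autoImplicit false
open GaloisRep GaloisRep.DeformationRingData

namespace Fermat.Agent.S54

theorem result {𝒪 : Type} [CommRing 𝒪] [IsDomain 𝒪] [IsDiscreteValuationRing 𝒪] [IsAdicComplete (IsLocalRing.maximalIdeal 𝒪) 𝒪] {ρbar : ResidualGaloisRep (IsLocalRing.ResidueField 𝒪)} {𝒟 : ∀ ⦃A : Type⦄ [CommRing A] [IsLocalRing A] [Algebra 𝒪 A], GaloisRepAdic A → Prop} (D : GaloisRep.DeformationRingData 𝒪 ρbar 𝒟) {N : ℕ} [NeZero N] {S : Set ℕ} {θ : CuspForm.heckeAlgebra N 2 S →+* IsLocalRing.ResidueField 𝒪} {T : Type} [CommRing T] [IsLocalRing T] [IsNoetherianRing T] [IsAdicComplete (IsLocalRing.maximalIdeal T) T] [Algebra 𝒪 T] [IsLocalHom (algebraMap 𝒪 T)] [Module.Finite 𝒪 T] [Module.Free 𝒪 T] (H : CuspForm.HeckeGaloisRepDatum N S 𝒪 θ T) (hS : ∀ q : ℕ, q.Prime → q ∣ N → q ∈ S) (h𝒟 : 𝒟 H.ρ) (hres : H.ρ.residual.IsEquiv (ρbar.baseChangeAlong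 (IsLocalRing.ResidueField.map (algebraMap 𝒪 T)))) : ∃ φ : D.R →ₐ[𝒪] T, Function.Surjective φ ∧ ∃ hφ : IsLocalHom (φ : D.R →+* T), (D.ρ.baseChangeAlong (φ : D.R →+* T) hφ).IsEquiv H.ρ := by
  obtain ⟨φ, ⟨hφ, hequiv⟩, -⟩ := D.universal T H.residue_surjective H.ρ h𝒟 hres
  refine ⟨φ, ?_, hφ, hequiv⟩
  have hT : ∀ {ℓ : ℕ} (hℓ : ℓ.Prime) (hℓN : ¬ ℓ ∣ N) (hℓS : ℓ ∉ S),
      H.π (CuspForm.heckeAlgebra.T hℓ hℓN hℓS) ∈ φ.range := by
    intro ℓ hℓ hℓN hℓS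
    obtain ⟨A, σ, hA, hσ⟩ := Fermat.Agent.Galois.exists_valuationSubring_isFrobeniusAt hℓ
    obtain ⟨e⟩ := hequiv
    letI : Algebra D.R T := (φ : D.R →+* T).toAlgebra
    have hconj : e.toLinearEquiv.conj ((D.ρ.ρ σ).baseChange T) = H.ρ.ρ σ := by
      refine LinearMap.ext fun x => ?_
      rw [LinearEquiv.conj_apply_apply]
      exact (e.map_apply σ _).trans (congrArg _ (e.toLinearEquiv.apply_symm_apply x))
    have hchar : (LinearMap.charpoly (D.ρ.ρ σ)).map (φ : D.R →+* T) =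
        LinearMap.charpoly (H.ρ.ρ σ) := by
      rw [← hconj]
      exact ((LinearMap.charpoly_baseChange (D.ρ.ρ σ) T).symm.trans
        (LinearEquiv.charpoly_conj e.toLinearEquiv _).symm)
    rw [H.charpoly_frob ℓ hℓ hℓN hℓS A hA σ hσ] at hchar
    have h1 := congrArg (fun p => Polynomial.coeff p 1) hchar
    simp [Polynomial.coeff_X_pow] at h1
    exact ⟨-(LinearMap.charpoly (D.ρ.ρ σ)).coeff 1, by simp [h1]⟩
  have hπ : ∀ t : CuspForm.heckeAlgebra N 2 S, H.π t ∈ φ.range := by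
    rintro ⟨t, ht⟩
    induction ht using Algebra.adjoin_induction with
    | mem x hx =>
      rcases hx with ⟨ℓ, hℓ, hℓN, hℓS, rfl⟩ | ⟨q, hqN, hq, hqS, rfl⟩
      · exact hT hℓ hℓN hℓS
      · exact absurd (hS q hq hqN) hqS
    | algebraMap n =>
      have : H.π (algebraMap ℤ (CuspForm.heckeAlgebra N 2 S) n) ∈ φ.range := by
        simp
      exact this
    | add x y hx hy ihx ihy =>
      have := add_mem ihx ihy
      rwa [← map_add] at this
    | mul x y hx hy ihx ihy =>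
      have := mul_mem ihx ihy
      rwa [← map_mul] at this
  intro y
  have hle : Algebra.adjoin 𝒪 (Set.range H.π) ≤ φ.range :=
    Algebra.adjoin_le (by rintro _ ⟨t, rfl⟩; exact hπ t)
  rw [H.adjoin_range_π] at hle
  exact hle (Algebra.mem_top : y ∈ (⊤ : Subalgebra 𝒪 T))

end Fermat.Agent.S54
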